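import Fermat.Agent.LT.A2.H54.LocFinSpec

/-!
# Row LT, tower A2, leaf A2.03.1.1.06.20 `LF54.LeafAxReg` (helper267, OFF-MAIN)

`leafAxReg267 : Fermat.Agent.LT.A2.LF54.LeafAxReg`, verbatim against the byte-identical copy of
`A2/H54/LocFinSpec.lean` (helper54).

The members `Fof Φ g m = L(m) r(d(det m)⁻¹ g) Φ` of the family are Schwartz--Bruhat: `rOp h Φ` is
Schwartz--Bruhat for `det h = 1` (hypothesis `RopSbP`), and `L(m)` is the composition with the
linear homeomorphism `actL m⁻¹` of `k²` times a constant.  Continuity is then clear, and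
integrability for `μ × μ` (product of the Borel σ-algebras) follows because `K_v` is second
countable (`K` is countable and dense in `K_v`), so that the product σ-algebra is the Borel
σ-algebra of `K_v²`.
-/

set_option autoImplicit false

open IsDedekindDomain NumberField MeasureTheory
open scoped Topology

noncomputable section

namespace Fermat.Agent.LT.A2.LF54.H267

open Fermat.Agent.LT.A2 Fermat.Agent.LT.A2.WX467 Fermat.Agent.LT.A2.LF54

/-! ## `K_v` is second countable -/

/-- A number field is countable. -/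
theorem countable_numberField267 (K : Type) [Field K] [NumberField K] : Countable K :=
  (Module.finBasis ℚ K).equivFun.injective.countable

/-- `K_v` is separable. -/
theorem separable_adic267 (K : Type) [Field K] [NumberField K] (v : HeightOneSpectrum (𝓞 K)) :
    TopologicalSpace.SeparableSpace (v.adicCompletion K) := by
  have := countable_numberField267 K
  exact ⟨⟨Set.range (algebraMap K (v.adicCompletion K)), Set.countable_range _,
    HeightOneSpectrum.denseRange_algebraMap (K := K) v⟩⟩

/-- `K_v` is second countable. -/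
theorem secondCountable_adic267 (K : Type) [Field K] [NumberField K]
    (v : HeightOneSpectrum (𝓞 K)) : SecondCountableTopology (v.adicCompletion K) := by
  have := separable_adic267 K v
  infer_instance

/-! ## The linear action on `k²` -/

section Act

variable {k : Type} [NormedField k]

theorem actL_one267 (ξ : k × k) : actL (1 : Matrix (Fin 2) (Fin 2) k) ξ = ξ := by
  simp [actL]

theorem actL_mul267 (A B : Matrix (Fin 2) (Fin 2) k) (ξ : k × k) :
    actL (A * B) ξ = actL A (actL B ξ) := by
  simp only [actL, Matrix.mul_apply, Fin.sum_univ_two]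
  ext <;> ring

theorem continuous_actL267 (A : Matrix (Fin 2) (Fin 2) k) : Continuous (actL A) := by
  unfold actL
  fun_prop

/-- The homeomorphism `actL m⁻¹` of `k²`, `det m ≠ 0`. -/
def actHomeo267 (m : Matrix (Fin 2) (Fin 2) k) (hm : m.det ≠ 0) : (k × k) ≃ₜ (k × k) where
  toFun := actL m⁻¹
  invFun := actL m
  left_inv ξ := by
    rw [← actL_mul267, Matrix.mul_nonsing_inv m (isUnit_iff_ne_zero.mpr hm), actL_one267]
  right_inv ξ := by
    rw [← actL_mul267, Matrix.nonsing_inv_mul m (isUnit_iff_ne_zero.mpr hm), actL_one267]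
  continuous_toFun := continuous_actL267 _
  continuous_invFun := continuous_actL267 _

/-- `L(m)` preserves Schwartz--Bruhat functions. -/
theorem isSB_lopL267 (m : Matrix (Fin 2) (Fin 2) k) (hm : m.det ≠ 0) (f : k × k → ℂ)
    (hf : IsSB f) : IsSB (lopL m f) := by
  refine ⟨?_, ?_⟩
  · exact (hf.1.comp_continuous (continuous_actL267 m⁻¹)).comp
      (fun z => (((Real.sqrt ‖m.det‖)⁻¹ : ℝ) : ℂ) * z)
  · have h1 : HasCompactSupport (f ∘ (actHomeo267 m hm)) := hf.2.comp_homeomorph _
    exact h1.mul_left (f := fun _ => (((Real.sqrt ‖m.det‖)⁻¹ : ℝ) : ℂ))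

end Act

/-! ## The leaf -/

/-- The members of the family are Schwartz--Bruhat. -/
theorem isSB_fof267 {k : Type} [NormedField k] (t n : k) (ψ : k → ℂ)
    (μ : @Measure k (borel k)) (γ : ℂ) (η : k → ℂ) (hS : RopSbP t n ψ μ γ η)
    (Φ : k × k → ℂ) (hΦ : IsSB Φ) (g m : Matrix (Fin 2) (Fin 2) k) (h : AdmL t n g m) :
    IsSB (Fof t n ψ μ γ η Φ g m) := by
  obtain ⟨-, hdet, hm⟩ := h
  have h1 : (!![1, 0; 0, (m.det)⁻¹] * g).det = 1 := by
    rw [Matrix.det_mul, Matrix.det_fin_two_of, hdet]
    field_simp
    ring
  exact isSB_lopL267 m hm _ (hS _ h1 Φ hΦ)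

/-- **Leaf 20 AX-REG**, proved. -/
theorem leafAxReg267 : LeafAxReg := by
  intro K _ _ v t n ψ μ γ η hctx hS Φ hΦ
  have key := isSB_fof267 t n ψ μ γ η hS Φ hΦ
  refine ⟨fun g m h => key g m h, fun g m h => (key g m h).1.continuous, fun g m h => ?_⟩
  let _ : MeasurableSpace (v.adicCompletion K) := borel _
  have : BorelSpace (v.adicCompletion K) := ⟨rfl⟩
  have := secondCountable_adic267 K v
  have : IsFiniteMeasureOnCompacts μ := ⟨fun C hC => hctx.haar.2.1 C hC⟩
  exact (key g m h).1.continuous.integrable_of_hasCompactSupport (key g m h).2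

end Fermat.Agent.LT.A2.LF54.H267

end
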